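import Mathlib
import Fermat.Agent.ReducibleModP.Criterion

/-!
# The roots modulo a prime are the roots fixed by a Frobenius element
-/

namespace Fermat.Agent.RootsModP

open Polynomial NumberField IsDedekindDomain
open scoped Polynomial

/-- The number of roots of `f` modulo `q`. -/
noncomputable def rootsMod (f : ℤ[X]) (q : ℕ) : ℕ :=
  {x : ZMod q | (f.map (Int.castRingHom (ZMod q))).eval x = 0}.ncard

variable {f : ℤ[X]} {L : Type} [Field L] [NumberField L]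

/-- The number of roots of `f` in `L` fixed by an automorphism. -/
noncomputable def fixedRoots (f : ℤ[X]) (σ : L ≃ₐ[ℚ] L) : ℕ :=
  {x : L | x ∈ (f.map (Int.castRingHom ℚ)).rootSet L ∧ σ x = x}.ncard

lemma fixedRoots_conj (σ g : L ≃ₐ[ℚ] L) : fixedRoots f (g * σ * g⁻¹) = fixedRoots f σ := by
  rw [fixedRoots, fixedRoots, show {x : L | x ∈ (f.map (Int.castRingHom ℚ)).rootSet L ∧
      (g * σ * g⁻¹) x = x} = g '' {x : L | x ∈ (f.map (Int.castRingHom ℚ)).rootSet L ∧ σ x = x}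
    from ?_, Set.ncard_image_of_injective _ g.injective]
  ext y
  constructor
  · rintro ⟨hy, h⟩
    refine ⟨g.symm y, ⟨rootSet_mapsTo g.symm.toAlgHom hy, g.injective ?_⟩, g.apply_symm_apply y⟩
    rw [AlgEquiv.mul_apply, AlgEquiv.mul_apply] at h
    exact h.trans (g.apply_symm_apply y).symm
  · rintro ⟨x, ⟨hx, hσx⟩, rfl⟩
    refine ⟨rootSet_mapsTo g.toAlgHom hx, ?_⟩
    rw [AlgEquiv.mul_apply, AlgEquiv.mul_apply]
    show g (σ (g.symm (g x))) = g x
    rw [g.symm_apply_apply, hσx]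

/-- At almost every prime the roots modulo `q` are as many as the roots fixed by any Frobenius
element above `q`. -/
theorem exists_bad_primes_roots (hf : f.Monic) (hsep : (f.map (Int.castRingHom ℚ)).Separable)
    (hs : ((f.map (Int.castRingHom ℚ)).map (algebraMap ℚ L)).Splits) :
    ∃ N : ℕ, N ≠ 0 ∧ ∀ q : ℕ, q.Prime → ¬ q ∣ N → ∀ Q : Ideal (𝓞 L), Q.IsMaximal →
      (q : 𝓞 L) ∈ Q → ∀ τ : L ≃ₐ[ℚ] L, IsArithFrobAt ℤ τ Q → rootsMod f q = fixedRoots f τ := by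
  classical
  set fQ := f.map (Int.castRingHom ℚ) with hfQ
  set R := (fQ.rootSet L).toFinset
  have hR : ∀ {x}, x ∈ R ↔ x ∈ fQ.rootSet L := fun {x} => Set.mem_toFinset
  have hcard : R.card = f.natDegree := by
    rw [Set.toFinset_card, card_rootSet_eq_natDegree hsep hs, hf.natDegree_map]
  have haeval : ∀ x ∈ R, aeval x f = 0 := fun x hx => by
    have h := (mem_rootSet.1 (hR.1 hx)).2
    rwa [hfQ, ← algebraMap_int_eq, aeval_map_algebraMap] at h
  have hint : ∀ x ∈ R, IsIntegral ℤ x := fun x hx =>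
    ⟨f, hf, by simpa [aeval_def] using haeval x hx⟩
  let r : R → 𝓞 L := fun x => ⟨x.1, hint x.1 x.2⟩
  set D := ∏ z ∈ (Finset.univ : Finset R).offDiag, (r z.1 - r z.2) with hDdef
  have hD : D ≠ 0 := Finset.prod_ne_zero_iff.2 fun z hz h => (Finset.mem_offDiag.1 hz).2.2
    (Subtype.ext (congrArg (fun t : 𝓞 L => (t : L)) (sub_eq_zero.1 h)))
  refine ⟨Ideal.absNorm (Ideal.span {D}), by
    simpa [Ideal.absNorm_eq_zero_iff] using hD, fun q hq hdvd Q hQ hqQ τ hτ => ?_⟩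
  have : Fact q.Prime := ⟨hq⟩
  have hDQ : D ∉ Q := FA.FrobeniusDensity.notMem_of_not_dvd hq hQ.ne_top hqQ hdvd
  let _ : Field (𝓞 L ⧸ Q) := Ideal.Quotient.field Q
  have : CharP (𝓞 L ⧸ Q) q := (CharP.charP_iff_prime_eq_zero hq).2 (by
    rw [← map_natCast (Ideal.Quotient.mk Q), Ideal.Quotient.eq_zero_iff_mem]
    exact hqQ)
  let _ : Algebra (ZMod q) (𝓞 L ⧸ Q) := ZMod.algebra _ q
  have : IsScalarTower ℤ (ZMod q) (𝓞 L ⧸ Q) := IsScalarTower.of_algebraMap_eq fun a => by simp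
  set fq := f.map (Int.castRingHom (ZMod q)) with hfq
  have hfq0 : fq ≠ 0 := (hf.map _).ne_zero
  set res : R → 𝓞 L ⧸ Q := fun x => Ideal.Quotient.mk Q (r x) with hres
  have hresinj : Function.Injective res := by
    intro x y h
    by_contra hne
    exact hDQ (Ideal.mem_of_dvd _ (Finset.dvd_prod_of_mem (fun z : R × R => r z.1 - r z.2)
      (Finset.mem_offDiag.2
        (⟨Finset.mem_univ x, Finset.mem_univ y, hne⟩ : (x, y).1 ∈ _ ∧ (x, y).2 ∈ _ ∧ _)))
        (Ideal.Quotient.eq.1 h))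
  have hresroot : ∀ x : R, res x ∈ fq.rootSet (𝓞 L ⧸ Q) := by
    intro x
    have h0 : aeval (r x) f = 0 := (FaithfulSMul.algebraMap_injective (𝓞 L) L).eq_iff.1 (by
      rw [map_zero, ← aeval_algebraMap_apply]
      exact haeval x.1 x.2)
    refine mem_rootSet.2 ⟨hfq0, ?_⟩
    rw [hfq, ← algebraMap_int_eq, aeval_map_algebraMap, hres]
    simp only
    rw [← Ideal.Quotient.mkₐ_eq_mk ℤ, aeval_algHom_apply, h0, map_zero]
  have hressurj : (fq.rootSet (𝓞 L ⧸ Q)).toFinset = Finset.univ.image res := by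
    refine (Finset.eq_of_subset_of_card_le (fun y hy => ?_) ?_).symm
    · obtain ⟨x, -, rfl⟩ := Finset.mem_image.1 hy
      exact Set.mem_toFinset.2 (hresroot x)
    · rw [Finset.card_image_of_injective _ hresinj, Finset.card_univ, Fintype.card_coe, hcard,
        Set.toFinset_card, ← hf.natDegree_map (Int.castRingHom (ZMod q)),
        ← Nat.card_eq_fintype_card, Nat.card_coe_set_eq]
      exact ncard_rootSet_le fq (𝓞 L ⧸ Q)
  have hfix : ∀ x : R, τ x.1 = x.1 ↔ res x ^ q = res x := by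
    intro x
    have hτx : τ x.1 ∈ R := hR.2 (rootSet_mapsTo τ.toAlgHom (hR.1 x.2))
    have h1 : res ⟨τ x.1, hτx⟩ = res x ^ q := by
      have h := hτ (r x)
      rw [FA.FrobeniusDensity.card_quotient_under hq hQ.ne_top hqQ] at h
      simp only [hres]
      rw [← map_pow, Ideal.Quotient.eq, show r ⟨τ x.1, hτx⟩ = τ • r x from RingOfIntegers.ext rfl]
      exact h
    rw [← h1, hresinj.eq_iff]
    exact ⟨fun h => Subtype.ext h, congrArg Subtype.val⟩
  rw [rootsMod, fixedRoots, ← hfQ, ← hfq]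
  set φ := algebraMap (ZMod q) (𝓞 L ⧸ Q)
  have hroot : ∀ y : ZMod q, fq.eval y = 0 → ∃ x : R, res x = φ y := by
    intro y hy
    have h : φ y ∈ fq.rootSet (𝓞 L ⧸ Q) := mem_rootSet.2 ⟨hfq0, by
      rw [aeval_algebraMap_apply_eq_algebraMap_eval, hy, map_zero]⟩
    rw [← Set.mem_toFinset, hressurj, Finset.mem_image] at h
    obtain ⟨x, -, hx⟩ := h
    exact ⟨x, hx⟩
  choose g hg using hroot
  refine Set.ncard_congr (fun y hy => (g y hy).1) (fun y hy => ⟨hR.1 (g y hy).2, (hfix _).2 ?_⟩)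
    (fun y z hy hz h => ?_) fun x hx => ?_
  · rw [hg, ← map_pow, ZMod.pow_card]
  · exact φ.injective (by rw [← hg y hy, ← hg z hz, Subtype.ext h])
  · have h := (hfix ⟨x, hR.2 hx.1⟩).1 hx.2
    rw [← Subfield.mem_bot_iff_pow_eq_self (𝓞 L ⧸ Q) q, ← ZMod.fieldRange_castHom_eq_bot q] at h
    obtain ⟨y, hy⟩ := h
    have hy' : φ y = res ⟨x, hR.2 hx.1⟩ := hy
    have hy0 : fq.eval y = 0 := φ.injective (by
      rw [map_zero, ← aeval_algebraMap_apply_eq_algebraMap_eval, hy']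
      exact (mem_rootSet.1 (hresroot _)).2)
    exact ⟨y, hy0, congrArg Subtype.val (hresinj ((hg y hy0).trans hy'))⟩

/-- Above every prime number there is a maximal ideal with a Frobenius element. -/
lemma exists_frob_above [IsGalois ℚ L] {q : ℕ} (hq : q.Prime) :
    ∃ Q : Ideal (𝓞 L), Q.IsMaximal ∧ (q : 𝓞 L) ∈ Q ∧
      ∃ τ : L ≃ₐ[ℚ] L, IsArithFrobAt ℤ τ Q := by
  have hne : Ideal.span {(q : 𝓞 L)} ≠ ⊤ := by
    intro h
    have h1 := congrArg Ideal.absNorm h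
    rw [Ideal.absNorm_span_singleton, Ideal.absNorm_top, ← map_natCast (algebraMap ℤ (𝓞 L)),
      Algebra.norm_algebraMap, Int.natAbs_pow, Int.natAbs_natCast, pow_eq_one_iff] at h1
    exact h1.elim hq.ne_one Module.finrank_pos.ne'
  obtain ⟨Q, hQ, hqQ⟩ := Ideal.exists_le_maximal _ hne
  have hqQ' : (q : 𝓞 L) ∈ Q := hqQ (Ideal.mem_span_singleton_self _)
  have : Finite (𝓞 L ⧸ Q) := Ideal.finiteQuotientOfFreeOfNeBot Q fun h => by
    rw [h, Ideal.mem_bot] at hqQ'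
    exact hq.ne_zero (Nat.cast_eq_zero.1 hqQ')
  exact ⟨Q, hQ, hqQ', IsArithFrobAt.exists_of_isInvariant ℤ (L ≃ₐ[ℚ] L) Q⟩

/-- A property of primes read off from the Frobenius class has the density of that class. -/
theorem hasDirichletDensity_of_iff [IsGalois ℚ L] {P : ℕ → Prop} {C : (L ≃ₐ[ℚ] L) → Prop}
    (hC : ∀ g x, C g → C (x * g * x⁻¹)) {N : ℕ} (hN0 : N ≠ 0)
    (hN : ∀ q : ℕ, q.Prime → ¬ q ∣ N → ∀ Q : Ideal (𝓞 L), Q.IsMaximal →
      (q : 𝓞 L) ∈ Q → ∀ τ : L ≃ₐ[ℚ] L, IsArithFrobAt ℤ τ Q → (P q ↔ C τ)) :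
    {v : HeightOneSpectrum (𝓞 ℚ) | P (Ideal.absNorm v.asIdeal)}.HasDirichletDensity
      ((Nat.card {σ : L ≃ₐ[ℚ] L | C σ} : ℝ) / Nat.card (L ≃ₐ[ℚ] L)) := by
  have hd := FA.Summary.chebotarev_density L {σ : L ≃ₐ[ℚ] L | C σ} fun g hg x => hC g x hg
  have hfin : {v : HeightOneSpectrum (𝓞 ℚ) | Ideal.absNorm v.asIdeal ∣ N}.Finite := by
    refine ((Set.Finite.biUnion (t := fun d => {I : Ideal (𝓞 ℚ) | Ideal.absNorm I = d})
      N.divisors.finite_toSet fun d _ => Ideal.finite_setOfPred_absNorm_eq (S := 𝓞 ℚ) d).preimage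
      fun v _ w _ h => HeightOneSpectrum.ext h).subset fun v hv => ?_
    exact Set.mem_iUnion₂.mpr ⟨_, Finset.mem_coe.mpr (Nat.mem_divisors.mpr ⟨hv, hN0⟩), rfl⟩
  refine FA.Chebotarev.hasDirichletDensity_congr (hfin.subset ?_) (hfin.subset ?_) hd
  · rintro v ⟨hv, hv'⟩
    by_contra hdvd
    have hq := FA.Chebotarev.absNorm_prime v
    obtain ⟨Q, hQ, hqQ, τ, hτ⟩ := exists_frob_above (L := L) hq
    exact hv' ⟨Q, hQ, hqQ, τ, (hN _ hq hdvd Q hQ hqQ τ hτ).1 hv, hτ⟩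
  · rintro v ⟨⟨Q, hQ, hqQ, τ, hτ, hτQ⟩, hv⟩
    by_contra hdvd
    exact hv ((hN _ (FA.Chebotarev.absNorm_prime v) hdvd Q hQ hqQ τ hτQ).2 hτ)

/-- The primes with exactly `k` roots have the density of the automorphisms fixing `k` roots. -/
theorem hasDirichletDensity_rootsMod [IsGalois ℚ L] (hf : f.Monic)
    (hsep : (f.map (Int.castRingHom ℚ)).Separable)
    (hs : ((f.map (Int.castRingHom ℚ)).map (algebraMap ℚ L)).Splits) (k : ℕ) :
    {v : HeightOneSpectrum (𝓞 ℚ) | rootsMod f (Ideal.absNorm v.asIdeal) = k}.HasDirichletDensity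
      ((Nat.card {σ : L ≃ₐ[ℚ] L | fixedRoots f σ = k} : ℝ) / Nat.card (L ≃ₐ[ℚ] L)) := by
  obtain ⟨N, hN0, hN⟩ := exists_bad_primes_roots hf hsep hs
  exact hasDirichletDensity_of_iff (P := fun q => rootsMod f q = k)
    (C := fun σ => fixedRoots f σ = k) (fun g x h => by rw [fixedRoots_conj]; exact h) hN0
    fun q hq hd Q hQ hqQ τ hτ => by rw [hN q hq hd Q hQ hqQ τ hτ]

/-- Almost all primes have a root iff every automorphism fixes one. -/
theorem finite_no_root_iff [IsGalois ℚ L] (hf : f.Monic)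
    (hsep : (f.map (Int.castRingHom ℚ)).Separable)
    (hs : ((f.map (Int.castRingHom ℚ)).map (algebraMap ℚ L)).Splits) :
    {q : ℕ | q.Prime ∧ rootsMod f q = 0}.Finite ↔ ∀ σ : L ≃ₐ[ℚ] L, fixedRoots f σ ≠ 0 := by
  obtain ⟨N, hN0, hN⟩ := exists_bad_primes_roots hf hsep hs
  refine ⟨fun hfin σ hσ => ?_, fun h => N.divisors.finite_toSet.subset ?_⟩
  · refine (((FA.Summary.chebotarev_infinite L σ).sdiff N.divisors.finite_toSet).mono ?_) hfin
    rintro q ⟨⟨hq, Q, hQ, hqQ, -, hτ⟩, hd⟩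
    exact ⟨hq, (hN q hq (fun h => hd (Nat.mem_divisors.2 ⟨h, hN0⟩)) Q hQ hqQ σ hτ).trans hσ⟩
  · rintro q ⟨hq, h0⟩
    by_contra hd
    obtain ⟨Q, hQ, hqQ, τ, hτ⟩ := exists_frob_above (L := L) hq
    exact h τ ((hN q hq (fun h => hd (Finset.mem_coe.2 (Nat.mem_divisors.2 ⟨h, hN0⟩))) Q hQ hqQ τ
      hτ).symm.trans h0)

end Fermat.Agent.RootsModP
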