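import Mathlib
import Fermat.Agent.RootsModP.Frobenius
import Fermat.Agent.VanDerWaerden.Criterion

/-!
# Counting fixed roots: Burnside, Cameron–Cohen and derangements
-/

namespace Fermat.Agent.RootsModP

open Polynomial
open scoped Polynomial Nat

/-- Burnside's lemma with `Nat.card`. -/
lemma sum_card_fixedBy (G X : Type*) [Group G] [Fintype G] [MulAction G X] [Finite X] :
    ∑ g : G, Nat.card (MulAction.fixedBy X g)
      = Nat.card (MulAction.orbitRel.Quotient G X) * Fintype.card G := by
  classical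
  cases nonempty_fintype X
  rw [Nat.card_eq_fintype_card (α := MulAction.orbitRel.Quotient G X),
    ← MulAction.sum_card_fixedBy_eq_card_orbits_mul_card_group G X]
  exact Finset.sum_congr rfl fun g _ => Nat.card_eq_fintype_card

/-- The fixed points on pairs. -/
lemma card_fixedBy_prod {G X : Type*} [Group G] [MulAction G X] (g : G) :
    Nat.card (MulAction.fixedBy (X × X) g) = Nat.card (MulAction.fixedBy X g) ^ 2 := by
  rw [sq, ← Nat.card_prod]
  refine Nat.card_congr
    { toFun := fun z => (⟨z.1.1, congrArg Prod.fst z.2⟩, ⟨z.1.2, congrArg Prod.snd z.2⟩)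
      invFun := fun z => ⟨(z.1.1, z.2.1), Prod.ext z.1.2 z.2.2⟩
      left_inv := fun z => rfl
      right_inv := fun z => rfl }

/-- **Cameron–Cohen**: a transitive action on `n ≥ 2` points has at least `|G| / n` elements without
fixed point. -/
theorem card_le_mul_card_fixedPointFree (G X : Type*) [Group G] [Fintype G] [MulAction G X]
    [Finite X] [MulAction.IsPretransitive G X] [Nontrivial X] :
    Fintype.card G
      ≤ Nat.card X * Nat.card {g : G | Nat.card (MulAction.fixedBy X g) = 0} := by
  classical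
  set χ : G → ℕ := fun g => Nat.card (MulAction.fixedBy X g)
  set n := Nat.card X
  have hle : ∀ g, χ g ≤ n := fun g => Nat.card_le_card_of_injective _ Subtype.val_injective
  have h1 : ∑ g, χ g = Fintype.card G := by
    rw [sum_card_fixedBy]
    have : Subsingleton (MulAction.orbitRel.Quotient G X) :=
      ⟨fun a b => Quotient.inductionOn₂ a b fun x y =>
        Quotient.sound (MulAction.exists_smul_eq G y x)⟩
    have : Nonempty (MulAction.orbitRel.Quotient G X) := ⟨Quotient.mk'' (Classical.arbitrary X)⟩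
    rw [Nat.card_unique, one_mul]
  have h2 : 2 * Fintype.card G ≤ ∑ g, χ g ^ 2 := by
    rw [show ∑ g, χ g ^ 2 = ∑ g : G, Nat.card (MulAction.fixedBy (X × X) g) from
      Finset.sum_congr rfl fun g _ => (card_fixedBy_prod g).symm, sum_card_fixedBy]
    refine Nat.mul_le_mul_right _ ?_
    obtain ⟨x, y, hxy⟩ := exists_pair_ne X
    have : Nontrivial (MulAction.orbitRel.Quotient G (X × X)) := by
      refine ⟨Quotient.mk'' (x, x), Quotient.mk'' (x, y), fun h => ?_⟩
      obtain ⟨g, hg⟩ := Quotient.exact' h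
      have e1 : g • x = x := congrArg Prod.fst hg
      have e2 : g • y = x := congrArg Prod.snd hg
      exact hxy (smul_left_cancel g (e1.trans e2.symm))
    exact Finite.one_lt_card
  have hpoint : ∀ g, ((χ g : ℤ) - 1) * ((χ g : ℤ) - n) ≤ if χ g = 0 then (n : ℤ) else 0 := by
    intro g
    split_ifs with h
    · rw [h]; push_cast; linarith
    · refine mul_nonpos_of_nonneg_of_nonpos ?_ ?_
      · have : 1 ≤ χ g := Nat.one_le_iff_ne_zero.2 h
        omega
      · have := hle g
        omega
  have h3 := Finset.sum_le_sum fun g (_ : g ∈ (Finset.univ : Finset G)) => hpoint g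
  rw [← Finset.sum_filter, Finset.sum_const, nsmul_eq_mul] at h3
  have hexp : ∑ g, ((χ g : ℤ) - 1) * ((χ g : ℤ) - n)
      = ∑ g, (χ g : ℤ) ^ 2 - (n + 1) * ∑ g, (χ g : ℤ) + n * Fintype.card G := by
    rw [Finset.mul_sum, ← Finset.sum_sub_distrib, show (n : ℤ) * Fintype.card G = ∑ _g : G, (n : ℤ)
      by simp [mul_comm], ← Finset.sum_add_distrib]
    exact Finset.sum_congr rfl fun g _ => by ring
  have h2' : 2 * (Fintype.card G : ℤ) ≤ ∑ g, (χ g : ℤ) ^ 2 := by exact_mod_cast h2
  have h1' : ∑ g, (χ g : ℤ) = Fintype.card G := by exact_mod_cast h1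
  rw [hexp, h1'] at h3
  rw [Nat.card_eq_fintype_card, Fintype.card_subtype]
  have h4 : (Fintype.card G : ℤ)
      ≤ n * ((Finset.univ.filter fun g => χ g = 0).card : ℤ) := by nlinarith
  exact_mod_cast h4

variable {f : ℤ[X]} {L : Type} [Field L] [NumberField L]

/-- The Galois action on the roots. -/
@[reducible] noncomputable def rootsMulAction (f : ℤ[X]) :
    MulAction (L ≃ₐ[ℚ] L) ((f.map (Int.castRingHom ℚ)).rootSet L) :=
  MulAction.compHom _ (VanDerWaerden.rootsAction f)

lemma fixedRoots_eq_card (σ : L ≃ₐ[ℚ] L) :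
    letI := rootsMulAction (L := L) f
    fixedRoots f σ
      = Nat.card (MulAction.fixedBy ((f.map (Int.castRingHom ℚ)).rootSet L) σ) := by
  let := rootsMulAction (L := L) f
  rw [fixedRoots, ← Nat.card_coe_set_eq]
  exact Nat.card_congr
    { toFun := fun x => ⟨⟨x.1, x.2.1⟩, Subtype.ext x.2.2⟩
      invFun := fun x => ⟨x.1.1, x.1.2, congrArg Subtype.val x.2⟩
      left_inv := fun x => rfl
      right_inv := fun x => rfl }

variable [IsGalois ℚ L]

/-- The roots of an irreducible polynomial form one orbit. -/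
lemma isPretransitive_roots (hirr : Irreducible (f.map (Int.castRingHom ℚ))) :
    letI := rootsMulAction (L := L) f
    MulAction.IsPretransitive (L ≃ₐ[ℚ] L) ((f.map (Int.castRingHom ℚ)).rootSet L) := by
  let := rootsMulAction (L := L) f
  refine ⟨fun x y => ?_⟩
  have hmin : aeval (y : L) (minpoly ℚ (x : L)) = 0 := by
    rw [← minpoly.eq_of_irreducible hirr (mem_rootSet.1 x.2).2, map_mul, (mem_rootSet.1 y.2).2,
      zero_mul]
  obtain ⟨σ, hσ⟩ := minpoly.exists_algEquiv_of_root' ⟨_, hirr.ne_zero, (mem_rootSet.1 x.2).2⟩ hmin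
  exact ⟨σ, Subtype.ext hσ⟩

/-- The number of orbits on the roots is the number of monic irreducible factors. -/
lemma card_orbits_eq (hf : f.Monic)
    (hs : ((f.map (Int.castRingHom ℚ)).map (algebraMap ℚ L)).Splits) :
    letI := rootsMulAction (L := L) f
    Nat.card (MulAction.orbitRel.Quotient (L ≃ₐ[ℚ] L) ((f.map (Int.castRingHom ℚ)).rootSet L))
      = {g : ℚ[X] | g.Monic ∧ Irreducible g ∧ g ∣ f.map (Int.castRingHom ℚ)}.ncard := by
  let := rootsMulAction (L := L) f
  set fQ := f.map (Int.castRingHom ℚ)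
  rw [← Nat.card_coe_set_eq]
  have hint : ∀ x : L, IsIntegral ℚ x := fun x => IsIntegral.of_finite ℚ x
  let m : fQ.rootSet L → {g : ℚ[X] | g.Monic ∧ Irreducible g ∧ g ∣ fQ} := fun x =>
    ⟨minpoly ℚ (x : L), minpoly.monic (hint _), minpoly.irreducible (hint _),
      minpoly.dvd _ _ (mem_rootSet.1 x.2).2⟩
  refine Nat.card_eq_of_bijective (Quotient.lift m fun x y h => ?_) ⟨fun a b => ?_, fun g => ?_⟩
  · obtain ⟨σ, hσ⟩ := h
    refine Subtype.ext ?_
    show minpoly ℚ (x : L) = minpoly ℚ (y : L)
    rw [← hσ]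
    exact minpoly.algEquiv_eq σ _
  · refine Quotient.inductionOn₂ a b fun x y h => Quotient.sound ?_
    have hmin : aeval (x : L) (minpoly ℚ (y : L)) = 0 := by
      rw [← show minpoly ℚ (x : L) = minpoly ℚ (y : L) from congrArg Subtype.val h]
      exact minpoly.aeval _ _
    obtain ⟨σ, hσ⟩ := minpoly.exists_algEquiv_of_root' (hint (y : L)).isAlgebraic hmin
    exact ⟨σ, Subtype.ext hσ⟩
  · obtain ⟨g, hgm, hgi, hgd⟩ := g
    obtain ⟨x, hx⟩ := (hs.of_dvd (map_monic_ne_zero (hf.map _))
      (Polynomial.map_dvd (algebraMap ℚ L) hgd)).exists_eval_eq_zero (by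
        rw [degree_map]
        exact (degree_pos_of_irreducible hgi).ne')
    rw [eval_map_algebraMap] at hx
    exact ⟨Quotient.mk'' ⟨x, mem_rootSet.2 ⟨(hf.map _).ne_zero,
      aeval_eq_zero_of_dvd_aeval_eq_zero hgd hx⟩⟩,
      Subtype.ext (minpoly.eq_of_irreducible_of_monic hgi hx hgm).symm⟩

/-- Burnside for the roots: the mean number of fixed roots is the number of irreducible factors. -/
theorem sum_fixedRoots (hf : f.Monic)
    (hs : ((f.map (Int.castRingHom ℚ)).map (algebraMap ℚ L)).Splits) :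
    ∑ σ : L ≃ₐ[ℚ] L, fixedRoots f σ
      = {g : ℚ[X] | g.Monic ∧ Irreducible g ∧ g ∣ f.map (Int.castRingHom ℚ)}.ncard
        * Nat.card (L ≃ₐ[ℚ] L) := by
  let := rootsMulAction (L := L) f
  rw [Finset.sum_congr rfl fun σ _ => fixedRoots_eq_card (f := f) σ, sum_card_fixedBy,
    card_orbits_eq hf hs, Nat.card_eq_fintype_card]

/-- For an irreducible `f` of degree `n ≥ 2` at least `|G| / n` automorphisms fix no root. -/
theorem card_le_mul_card_no_fixedRoot (hf : f.Monic)
    (hirr : Irreducible (f.map (Int.castRingHom ℚ)))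
    (hs : ((f.map (Int.castRingHom ℚ)).map (algebraMap ℚ L)).Splits) (hn : 2 ≤ f.natDegree) :
    Nat.card (L ≃ₐ[ℚ] L) ≤ f.natDegree * Nat.card {σ : L ≃ₐ[ℚ] L | fixedRoots f σ = 0} := by
  classical
  let := rootsMulAction (L := L) f
  have := isPretransitive_roots (L := L) hirr
  have hcard : Nat.card ((f.map (Int.castRingHom ℚ)).rootSet L) = f.natDegree := by
    rw [Nat.card_eq_fintype_card, card_rootSet_eq_natDegree hirr.separable hs, hf.natDegree_map]
  have : Nontrivial ((f.map (Int.castRingHom ℚ)).rootSet L) :=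
    Finite.one_lt_card_iff_nontrivial.1 (hcard ▸ hn)
  have h := card_le_mul_card_fixedPointFree (L ≃ₐ[ℚ] L) ((f.map (Int.castRingHom ℚ)).rootSet L)
  simp only [← fixedRoots_eq_card, ← Nat.card_eq_fintype_card, hcard] at h
  exact h

omit [IsGalois ℚ L] in
/-- For the group `Sₙ` the automorphisms without fixed root are the derangements. -/
theorem card_no_fixedRoot_symmetric (hf : f.Monic)
    [IsSplittingField ℚ L (f.map (Int.castRingHom ℚ))]
    (hsep : (f.map (Int.castRingHom ℚ)).Separable) (hG : Nat.card (L ≃ₐ[ℚ] L) = (f.natDegree !)) :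
    Nat.card {σ : L ≃ₐ[ℚ] L | fixedRoots f σ = 0} = numDerangements f.natDegree := by
  classical
  let := rootsMulAction (L := L) f
  have hs := IsSplittingField.splits L (f.map (Int.castRingHom ℚ))
  have hcard : Fintype.card ((f.map (Int.castRingHom ℚ)).rootSet L) = f.natDegree := by
    rw [card_rootSet_eq_natDegree hsep hs, hf.natDegree_map]
  have hbij : Function.Bijective (VanDerWaerden.rootsAction (L := L) f) :=
    (VanDerWaerden.rootsAction_injective f).bijective_of_nat_card_le (by
      rw [Nat.card_perm, Nat.card_eq_fintype_card (α := (f.map (Int.castRingHom ℚ)).rootSet L),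
        hcard, hG])
  rw [← hcard, ← card_derangements_eq_numDerangements, ← Nat.card_eq_fintype_card]
  refine Nat.card_congr ((Equiv.ofBijective _ hbij).subtypeEquiv fun σ => ?_)
  rw [Set.mem_ofPred_eq, fixedRoots_eq_card, Nat.card_eq_zero,
    or_iff_left (not_infinite_iff_finite.2 inferInstance), isEmpty_subtype]
  rfl

end Fermat.Agent.RootsModP
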