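import Mathlib

/-!
# A polynomial with roots modulo every positive integer and none in `ℚ`
-/

namespace Fermat.Agent.RootsModP

/-- Lifting square roots modulo powers of an odd prime. -/
lemma sq_mod_pow_of_odd {p : ℕ} (hp : p.Prime) (hp2 : p ≠ 2) {c r₀ : ℤ}
    (hc : ¬ (p : ℤ) ∣ c) (h : (p : ℤ) ∣ r₀ ^ 2 - c) :
    ∀ k : ℕ, ∃ r : ℤ, (p : ℤ) ^ (k + 1) ∣ r ^ 2 - c := by
  have : Fact p.Prime := ⟨hp⟩
  intro k
  induction k with
  | zero => exact ⟨r₀, by rwa [zero_add, pow_one]⟩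
  | succ k ih =>
    obtain ⟨r, s, hs⟩ := ih
    have hp0 : (p : ℤ) ∣ r ^ 2 - c := hs ▸ (dvd_pow_self _ k.succ_ne_zero).mul_right s
    have hr : ((2 * r : ℤ) : ZMod p) ≠ 0 := by
      intro h0
      rw [ZMod.intCast_zmod_eq_zero_iff_dvd] at h0
      rcases (Nat.prime_iff_prime_int.1 hp).dvd_mul.1 h0 with h2 | h2
      · exact hp2 ((Nat.prime_dvd_prime_iff_eq hp Nat.prime_two).1 (Int.natCast_dvd_natCast.1 h2))
      · exact hc ((dvd_sub_right (dvd_pow h2 two_ne_zero)).1 hp0)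
    obtain ⟨t, ht⟩ := ZMod.intCast_surjective (-((s : ZMod p)) / ((2 * r : ℤ) : ZMod p))
    have hz : ((s + 2 * r * t : ℤ) : ZMod p) = 0 := by
      rw [Int.cast_add, Int.cast_mul, ht, mul_div_cancel₀ _ hr, add_neg_cancel]
    rw [ZMod.intCast_zmod_eq_zero_iff_dvd] at hz
    obtain ⟨w, hw⟩ := hz
    refine ⟨r + (p : ℤ) ^ (k + 1) * t, w + (p : ℤ) ^ k * t ^ 2, ?_⟩
    calc (r + (p : ℤ) ^ (k + 1) * t) ^ 2 - c
        = (r ^ 2 - c) + (p : ℤ) ^ (k + 1) * (2 * r * t) + ((p : ℤ) ^ (k + 1)) ^ 2 * t ^ 2 := by ring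
      _ = (p : ℤ) ^ (k + 1) * (s + 2 * r * t) + ((p : ℤ) ^ (k + 1)) ^ 2 * t ^ 2 := by rw [hs]; ring
      _ = (p : ℤ) ^ (k + 1 + 1) * (w + (p : ℤ) ^ k * t ^ 2) := by rw [hw]; ring

/-- Seventeen is a square modulo every power of two. -/
lemma seventeen_sq_mod_two_pow : ∀ k : ℕ, ∃ r : ℤ, ¬ 2 ∣ r ∧ (2 : ℤ) ^ (k + 3) ∣ r ^ 2 - 17 := by
  intro k
  induction k with
  | zero => exact ⟨1, by decide, by norm_num⟩
  | succ k ih =>
    obtain ⟨r, hr, s, hs⟩ := ih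
    rcases Int.even_or_odd s with ⟨w, hw⟩ | ⟨w, hw⟩
    · exact ⟨r, hr, w, by rw [hs, hw]; ring⟩
    · obtain ⟨v, hv⟩ : Odd r := Int.not_even_iff_odd.1 fun h => hr h.two_dvd
      refine ⟨r + 2 ^ (k + 2), fun h => hr ((dvd_add_left (dvd_pow_self 2 (by omega))).1 h),
        w + v + 1 + 2 ^ k, ?_⟩
      calc (r + 2 ^ (k + 2)) ^ 2 - 17
          = (r ^ 2 - 17) + 2 ^ (k + 3) * r + 2 ^ (2 * k + 4) := by ring
        _ = (2 : ℤ) ^ (k + 1 + 3) * (w + v + 1 + 2 ^ k) := by rw [hs, hw, hv]; ring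

/-- `(X² - 2)(X² - 17)(X² - 34)` has a root modulo every prime power. -/
lemma exists_root_prime_pow {p : ℕ} (hp : p.Prime) (k : ℕ) :
    ∃ x : ℤ, ((p : ℤ) ^ k) ∣ (x ^ 2 - 2) * (x ^ 2 - 17) * (x ^ 2 - 34) := by
  have : Fact p.Prime := ⟨hp⟩
  rcases k with _ | k
  · exact ⟨0, by simp⟩
  by_cases hp2 : p = 2
  · subst hp2
    obtain ⟨r, -, hr⟩ := seventeen_sq_mod_two_pow k
    exact ⟨r, ((pow_dvd_pow _ (by omega)).trans hr).mul_left _ |>.mul_right _⟩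
  by_cases hp17 : p = 17
  · subst hp17
    obtain ⟨r, hr⟩ := sq_mod_pow_of_odd (c := 2) (r₀ := 6) hp hp2 (by norm_num) (by norm_num) k
    exact ⟨r, (hr.mul_right _).mul_right _⟩
  have hne : ∀ c : ℕ, (∀ q : ℕ, q.Prime → q ∣ c → q = 2 ∨ q = 17) → ¬ (p : ℤ) ∣ c := fun c hc h =>
    (hc p hp (Int.natCast_dvd_natCast.1 h)).elim hp2 hp17
  have hfac : ∀ c : ℕ, c ∣ 34 → ∀ q : ℕ, q.Prime → q ∣ c → q = 2 ∨ q = 17 := fun c hc q hq hqc =>
    (hq.dvd_mul.1 (show q ∣ 2 * 17 from hqc.trans hc)).imp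
      (Nat.prime_dvd_prime_iff_eq hq Nat.prime_two).1
      (Nat.prime_dvd_prime_iff_eq hq (by norm_num)).1
  have h2 := hne 2 (hfac 2 (by norm_num))
  have h17 := hne 17 (hfac 17 (by norm_num))
  have h34 := hne 34 (hfac 34 dvd_rfl)
  have hex : ∃ c ∈ ({2, 17, 34} : Finset ℤ), IsSquare (c : ZMod p) := by
    have hu : ∀ c : ℤ, ¬ (p : ℤ) ∣ c → (c : ZMod p) ≠ 0 := fun c h h0 =>
      h ((ZMod.intCast_zmod_eq_zero_iff_dvd c p).1 h0)
    by_contra hcon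
    push Not at hcon
    have a := (legendreSym.eq_neg_one_iff p).2 (hcon 2 (by simp))
    have b := (legendreSym.eq_neg_one_iff p).2 (hcon 17 (by simp))
    refine hcon 34 (by simp) ((legendreSym.eq_one_iff p (hu 34 (by exact_mod_cast h34))).1 ?_)
    rw [show (34 : ℤ) = 2 * 17 by norm_num, legendreSym.mul, a, b]
    norm_num
  obtain ⟨c, hc, y, hy⟩ := hex
  obtain ⟨r₀, rfl⟩ := ZMod.intCast_surjective y
  have hr₀ : (p : ℤ) ∣ r₀ ^ 2 - c := by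
    rw [← ZMod.intCast_zmod_eq_zero_iff_dvd, Int.cast_sub, Int.cast_pow, sq, hy, sub_self]
  simp only [Finset.mem_insert, Finset.mem_singleton] at hc
  rcases hc with rfl | rfl | rfl
  · obtain ⟨r, hr⟩ := sq_mod_pow_of_odd hp hp2 (by exact_mod_cast h2) hr₀ k
    exact ⟨r, (hr.mul_right _).mul_right _⟩
  · obtain ⟨r, hr⟩ := sq_mod_pow_of_odd hp hp2 (by exact_mod_cast h17) hr₀ k
    exact ⟨r, (hr.mul_left _).mul_right _⟩
  · obtain ⟨r, hr⟩ := sq_mod_pow_of_odd hp hp2 (by exact_mod_cast h34) hr₀ k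
    exact ⟨r, hr.mul_left _⟩

/-- `(X² - 2)(X² - 17)(X² - 34)` has a root modulo every positive integer. -/
theorem exists_root_mod {m : ℕ} (hm : 0 < m) :
    ∃ x : ℤ, (m : ℤ) ∣ (x ^ 2 - 2) * (x ^ 2 - 17) * (x ^ 2 - 34) := by
  induction m using Nat.recOnPosPrimePosCoprime with
  | zero => omega
  | one => exact ⟨0, by simp⟩
  | prime_pow p k hp _ =>
    obtain ⟨x, hx⟩ := exists_root_prime_pow hp k
    exact ⟨x, by exact_mod_cast hx⟩
  | coprime a b ha hb hab iha ihb =>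
    obtain ⟨x, hx⟩ := iha (by omega)
    obtain ⟨y, hy⟩ := ihb (by omega)
    obtain ⟨u, v, huv⟩ : IsCoprime (a : ℤ) b := Nat.isCoprime_iff_coprime.2 hab
    have key : ∀ z w : ℤ, z - w ∣ (z ^ 2 - 2) * (z ^ 2 - 17) * (z ^ 2 - 34)
        - (w ^ 2 - 2) * (w ^ 2 - 17) * (w ^ 2 - 34) := fun z w =>
      ⟨(z + w) * ((z ^ 2) ^ 2 + z ^ 2 * w ^ 2 + (w ^ 2) ^ 2 - 53 * (z ^ 2 + w ^ 2) + 680), by ring⟩
    refine ⟨x * (v * b) + y * (u * a), ?_⟩
    push_cast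
    refine (Nat.isCoprime_iff_coprime.2 hab).mul_dvd ?_ ?_
    · refine (dvd_sub_left hx).1 (dvd_trans ?_ (key _ x))
      exact ⟨(y - x) * u, by linear_combination x * huv⟩
    · refine (dvd_sub_left hy).1 (dvd_trans ?_ (key _ y))
      exact ⟨(x - y) * v, by linear_combination y * huv⟩

/-- … and no rational root. -/
theorem no_rat_root (x : ℚ) : (x ^ 2 - 2) * (x ^ 2 - 17) * (x ^ 2 - 34) ≠ 0 := by
  have h : ∀ c : ℕ, ¬ IsSquare c → x ^ 2 - (c : ℚ) ≠ 0 := fun c hc h0 =>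
    hc (Rat.isSquare_natCast_iff.1 ⟨x, by rw [← sq]; linarith⟩)
  have hsq : ∀ c : ℕ, c < 36 → c ∉ ({0, 1, 4, 9, 16, 25} : Finset ℕ) → ¬ IsSquare c := by
    rintro c hc hmem ⟨r, rfl⟩
    have : r < 6 := by nlinarith
    interval_cases r <;> simp_all
  refine mul_ne_zero (mul_ne_zero ?_ ?_) ?_
  · exact_mod_cast h 2 (hsq 2 (by norm_num) (by decide))
  · exact_mod_cast h 17 (hsq 17 (by norm_num) (by decide))
  · exact_mod_cast h 34 (hsq 34 (by norm_num) (by decide))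

end Fermat.Agent.RootsModP
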